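import Mathlib
import Fermat.Prelude.Def_FLTPrelim_Modularity
import Fermat.Prelude.Def_ModularForm_HeckeOperator
import Fermat.Agent.DS.A.Defs

/-!
# Program DS (S48, Deligne–Serre), package (B): definitions

Sub-architect: helper16.  Blueprint: `blueprints/S48-B.md`.

* `DsEigen N ε f`  : the hypotheses of the frozen S48 on `(N, ε, f)`, bundled.
* `dsbW N k χ`     : the subspace `S_k(N, χ) ⊆ S_k(Γ₁(N))` of forms with nebentypus `χ`
                     (helper8's function-level predicate `dsa_Neben`).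
* `dsbO N χ`       : the ring `ℤ[χ] ⊆ ℂ` generated by the values of `χ`.
* `dsField N ε f`  : the coefficient field `ℚ(a_p (p ∤ N), ε) ⊆ ℂ`.
-/

set_option autoImplicit false

noncomputable section

namespace Fermat.Agent.DS

open CongruenceSubgroup UpperHalfPlane ModularFormClass
open scoped MatrixGroups ModularForm

/-- The hypotheses of the frozen statement S48 on `(N, ε, f)`. -/
structure DsEigen (N : ℕ) [NeZero N] (ε : DirichletCharacter ℂ N) (f : CuspForm (Gamma1 N) 1) :
    Prop where
  one : qCoeff f 1 = 1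
  hecke : ∀ p : ℕ, p.Prime → ¬ p ∣ N → ∀ n : ℕ,
    qCoeff f (p * n) + ε (p : ZMod N) * (if p ∣ n then qCoeff f (n / p) else 0)
      = qCoeff f p * qCoeff f n

/-- `S_k(N, χ)` inside `S_k(Γ₁(N))`. -/
def dsbW (N : ℕ) [NeZero N] (k : ℤ) (χ : DirichletCharacter ℂ N) :
    Submodule ℂ (CuspForm (Gamma1 N) k) where
  carrier := {f | dsa_Neben N k χ ⇑f}
  add_mem' := by
    intro f g hf hg γ hγ
    rw [CuspForm.coe_add, SlashAction.add_slash, hf γ hγ, hg γ hγ, smul_add]
  zero_mem' := by
    intro γ _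
    rw [CuspForm.coe_zero, SlashAction.zero_slash, smul_zero]
  smul_mem' := by
    intro c f hf γ hγ
    rw [CuspForm.coe_smul, ModularForm.SL_smul_slash, hf γ hγ, smul_comm]

theorem mem_dsbW {N : ℕ} [NeZero N] {k : ℤ} {χ : DirichletCharacter ℂ N}
    {f : CuspForm (Gamma1 N) k} : f ∈ dsbW N k χ ↔ dsa_Neben N k χ ⇑f := Iff.rfl

/-- `ℤ[χ]`: the subring of `ℂ` generated by the values of `χ`. -/
def dsbO (N : ℕ) (χ : DirichletCharacter ℂ N) : Subring ℂ := Subring.closure (Set.range χ)

/-- the field generated by the eigenvalues and the values of the character. -/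
def dsField (N : ℕ) [NeZero N] (ε : DirichletCharacter ℂ N) (f : CuspForm (Gamma1 N) 1) :
    IntermediateField ℚ ℂ :=
  IntermediateField.adjoin ℚ
    ({x | ∃ p : ℕ, p.Prime ∧ ¬ p ∣ N ∧ x = qCoeff f p} ∪ Set.range (fun a : ZMod N => ε a))

end Fermat.Agent.DS
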