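import Mathlib
import Fermat.Prelude.Def_FLTPrelim_Modularity
import Fermat.Prelude.Def_ModularForm_HeckeOperator
import Fermat.Agent.DS.B.Defs
import Fermat.Agent.DS.R.Sturm
import Fermat.Agent.DS.R.Main

/-!
# Program DS, package (B), row B-2: conjugates of the eigenform (helper3)
-/

set_option autoImplicit false

noncomputable section

namespace Fermat.Agent.DS

open CongruenceSubgroup UpperHalfPlane ModularFormClass
open scoped MatrixGroups ModularForm Real

section B

variable {N : ℕ} [NeZero N] {ε : DirichletCharacter ℂ N} {f : CuspForm (Gamma1 N) 1}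

/-- The hypotheses of S48 force `3 ≤ N`. -/
theorem dsbcj_three_le (h : DsEigen N ε f) : 3 ≤ N := by
  by_contra hN
  have h0 : f = 0 := dsr_eq_zero_of_le_two N (by omega) 1 odd_one f
  have h1 := h.one
  rw [h0, FunLike.coe_zero, qCoeff, UpperHalfPlane.qExpansion_zero, map_zero] at h1
  exact zero_ne_one h1

/-- **B-2**.  Conjugates. -/
theorem ds_conj (h : DsEigen N ε f) (σ : ℂ →+* ℂ) :
    ∃ f' : CuspForm (Gamma1 N) 1, DsEigen N (ε.ringHomComp σ) f' ∧
      ∀ n, qCoeff f' n = σ (qCoeff f n) := by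
  obtain ⟨f', hf'⟩ := ds_exists_conj N (dsbcj_three_le h) 1 f σ
  refine ⟨f', ⟨?_, ?_⟩, hf'⟩
  · rw [hf', h.one, map_one]
  · intro p hp hpN n
    simp only [hf']
    rw [MulChar.ringHomComp_apply, ← map_mul, ← h.hecke p hp hpN n, map_add,
      map_mul, apply_ite σ, map_zero]

end B

end Fermat.Agent.DS
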