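import Mathlib
import Fermat.Prelude.Def_FLTPrelim_Modularity
import Fermat.Prelude.Def_ModularForm_HeckeOperator
import Fermat.Agent.DS.A.Spec
import Fermat.Agent.DS.B.Defs

/-!
# Program DS, package (B), row B-0b: `Γ₁(N)`-invariance of all `T^{χ(p)} f` forces nebentypus `χ`
(helper3)

Uses only the Spec-level statements `dsa_decomp` (A3), `dsa_decomp_unique` (A3'), `dsa_T_neben`
(A4), `dsa_vanish` (A9), `dsa_exists_prime_ne` (A11) of package (A).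
-/

set_option autoImplicit false

noncomputable section

namespace Fermat.Agent.DS

open CongruenceSubgroup UpperHalfPlane ModularFormClass
open scoped MatrixGroups ModularForm Real

theorem dsbn_coe_sum {N : ℕ} {k : ℤ} {ι : Type*} (s : Finset ι)
    (F : ι → CuspForm (Gamma1 N) k) :
    ⇑(∑ i ∈ s, F i) = ∑ i ∈ s, (⇑(F i) : ℍ → ℂ) :=
  map_sum (FunLike.coeAddMonoidHom (CuspForm (Gamma1 N) k) ℍ ℂ) F s

theorem dsbn_D_smul (k : ℤ) (p : ℕ) (a : ℂ) (g : ℍ → ℂ) :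
    dsa_D k p (a • g) = a • dsa_D k p g := by
  rw [dsa_D, dsa_D, ModularForm.smul_slash, ModularForm.σ_heckeDiagMatrix]
  rfl

theorem dsbn_D_sum {ι : Type*} (k : ℤ) (p : ℕ) (s : Finset ι) (g : ι → ℍ → ℂ) :
    dsa_D k p (∑ i ∈ s, g i) = ∑ i ∈ s, dsa_D k p (g i) := by
  rw [dsa_D, SlashAction.sum_slash]
  rfl

theorem dsbn_heckeU_sum {ι : Type*} (k : ℤ) (p : ℕ) (s : Finset ι) (g : ι → ℍ → ℂ) :
    ModularForm.heckeU k p (∑ i ∈ s, g i) = ∑ i ∈ s, ModularForm.heckeU k p (g i) := by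
  classical
  induction s using Finset.induction_on with
  | empty => simp
  | insert a s ha ih =>
    rw [Finset.sum_insert ha, Finset.sum_insert ha, ModularForm.heckeU_add, ih]

theorem dsbn_neben_smul {N : ℕ} {k : ℤ} {χ : DirichletCharacter ℂ N} {g : ℍ → ℂ} (a : ℂ)
    (hg : dsa_Neben N k χ g) : dsa_Neben N k χ (a • g) := by
  intro γ hγ
  rw [ModularForm.SL_smul_slash, hg γ hγ, smul_comm]

theorem dsbn_inv1_of_neben {N : ℕ} {k : ℤ} {χ : DirichletCharacter ℂ N} {g : ℍ → ℂ}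
    (hg : dsa_Neben N k χ g) : dsa_Inv1 N k g := by
  intro γ hγ
  rw [hg γ (Gamma1_in_Gamma0 N hγ), ((Gamma1_mem N γ).mp hγ).2.1, map_one, one_smul]

theorem dsbn_inv1_sub {N : ℕ} {k : ℤ} {g h : ℍ → ℂ} (hg : dsa_Inv1 N k g)
    (hh : dsa_Inv1 N k h) : dsa_Inv1 N k (g - h) := by
  intro δ hδ
  rw [sub_eq_add_neg, SlashAction.add_slash, SlashAction.neg_slash, hg δ hδ, hh δ hδ]

theorem dsbn_inv1_sum {N : ℕ} {k : ℤ} {ι : Type*} (s : Finset ι) (g : ι → ℍ → ℂ)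
    (hg : ∀ i ∈ s, dsa_Inv1 N k (g i)) : dsa_Inv1 N k (∑ i ∈ s, g i) := by
  intro δ hδ
  rw [SlashAction.sum_slash]
  exact Finset.sum_congr rfl fun i hi => hg i hi δ hδ

/-- The key identity: `D (∑_ψ (a - b_ψ) • g_ψ) = T^a (∑_ψ g_ψ) - ∑_ψ T^{b_ψ} g_ψ`. -/
theorem dsbn_key {ι : Type*} (k : ℤ) (p : ℕ) (s : Finset ι) (a : ℂ) (b : ι → ℂ)
    (g : ι → ℍ → ℂ) :
    dsa_D k p (∑ i ∈ s, (a - b i) • g i) =
      dsa_T k p a (∑ i ∈ s, g i) - ∑ i ∈ s, dsa_T k p (b i) (g i) := by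
  simp only [dsa_T]
  rw [dsbn_heckeU_sum, dsbn_D_sum, dsbn_D_sum, Finset.sum_add_distrib, Finset.smul_sum,
    add_sub_add_left_eq_sub, ← Finset.sum_sub_distrib]
  refine Finset.sum_congr rfl fun i _ => ?_
  rw [dsbn_D_smul, sub_smul]

/-- **B-0b**. -/
theorem dsb_neben_of_inv (N : ℕ) [NeZero N] (k : ℤ) (χ : DirichletCharacter ℂ N)
    (f : CuspForm (Gamma1 N) k)
    (h : ∀ p : ℕ, p.Prime → ¬ p ∣ N → dsa_Inv1 N k (dsa_T k p (χ (p : ZMod N)) ⇑f)) :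
    dsa_Neben N k χ ⇑f := by
  classical
  obtain ⟨c, hsum, hc⟩ := dsa_decomp N k f
  have hfsum : (⇑f : ℍ → ℂ) = ∑ ψ : DirichletCharacter ℂ N, (⇑(c ψ) : ℍ → ℂ) := by
    rw [← hsum, dsbn_coe_sum]
  have key : ∀ p : ℕ, p.Prime → ¬ p ∣ N → ∀ ψ : DirichletCharacter ℂ N,
      (χ (p : ZMod N) - ψ (p : ZMod N)) • c ψ = 0 := by
    intro p hp hpN
    apply dsa_decomp_unique N k (fun ψ => (χ (p : ZMod N) - ψ (p : ZMod N)) • c ψ)
    · intro ψ
      rw [FunLike.coe_smul]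
      exact dsbn_neben_smul _ (hc ψ)
    · apply dsa_vanish N k p hp hpN
      have h1 : (⇑(∑ ψ : DirichletCharacter ℂ N, (χ (p : ZMod N) - ψ (p : ZMod N)) • c ψ) :
          ℍ → ℂ) = ∑ ψ : DirichletCharacter ℂ N,
            (χ (p : ZMod N) - ψ (p : ZMod N)) • (⇑(c ψ) : ℍ → ℂ) := by
        rw [dsbn_coe_sum]
        exact Finset.sum_congr rfl fun ψ _ => FunLike.coe_smul _ _
      rw [h1, dsbn_key, ← hfsum]
      refine dsbn_inv1_sub (h p hp hpN) (dsbn_inv1_sum _ _ fun ψ _ => ?_)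
      exact dsbn_inv1_of_neben (dsa_T_neben N k p hp hpN ψ _ (hc ψ))
  have hzero : ∀ ψ : DirichletCharacter ℂ N, ψ ≠ χ → c ψ = 0 := by
    intro ψ hψ
    obtain ⟨p, hp, hpN, hne⟩ := dsa_exists_prime_ne N ψ χ hψ
    rcases smul_eq_zero.mp (key p hp hpN ψ) with h0 | h0
    · exact absurd (sub_eq_zero.mp h0).symm hne
    · exact h0
  have hf : f = c χ := by
    rw [← hsum]
    exact Finset.sum_eq_single χ (fun ψ _ hψ => hzero ψ hψ)
      (fun hχ => absurd (Finset.mem_univ χ) hχ)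
  rw [hf]
  exact hc χ

end Fermat.Agent.DS
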