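import Mathlib
import Fermat.Prelude.Def_FLTPrelim_Modularity
import Fermat.Prelude.Def_ModularForm_HeckeOperator
import Fermat.Prelude.Thm_ModularForm_mdifferentiable_heckeU
import Fermat.Prelude.Thm_ModularForm_mdifferentiable_heckeT
import Fermat.Prelude.Thm_ModularForm_periodic_heckeU_comp_ofComplex
import Fermat.Prelude.Thm_ModularForm_periodic_heckeT_comp_ofComplex
import Fermat.Prelude.Thm_ModularForm_isBoundedAtImInfty_heckeU
import Fermat.Prelude.Thm_ModularForm_isBoundedAtImInfty_heckeT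
import Fermat.Prelude.Thm_UpperHalfPlane_qCoeff_heckeU
import Fermat.Prelude.Thm_UpperHalfPlane_qCoeff_heckeT
import Fermat.Agent.S23.Defs
import Fermat.Agent.S23.Nice
import Fermat.Agent.DS.A.Defs

/-!
# Program DS, package (B), row B-0a: `q`-expansion of the twisted operator `T^c = U + c • D`
on nice functions (helper3)
-/

set_option autoImplicit false

noncomputable section

namespace Fermat.Agent.DS

open CongruenceSubgroup UpperHalfPlane ModularFormClass
open scoped MatrixGroups ModularForm Real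

theorem dsbt_isNice_U (k : ℤ) (p : ℕ) {f : ℍ → ℂ} (hf : Fermat.Agent.S23.IsNice f) :
    Fermat.Agent.S23.IsNice (ModularForm.heckeU k p f) where
  holo := ModularForm.mdifferentiable_heckeU hf.holo k p
  periodic := ModularForm.periodic_heckeU_comp_ofComplex hf.periodic k p
  bdd := ModularForm.isBoundedAtImInfty_heckeU hf.bdd k p

theorem dsbt_isNice_heckeT (k : ℤ) (p : ℕ) {f : ℍ → ℂ} (hf : Fermat.Agent.S23.IsNice f) :
    Fermat.Agent.S23.IsNice (ModularForm.heckeT k p f) where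
  holo := ModularForm.mdifferentiable_heckeT hf.holo k p
  periodic := ModularForm.periodic_heckeT_comp_ofComplex hf.periodic k p
  bdd := ModularForm.isBoundedAtImInfty_heckeT hf.bdd k p

theorem dsbt_D_eq (k : ℤ) (p : ℕ) (f : ℍ → ℂ) :
    dsa_D k p f = ModularForm.heckeT k p f - ModularForm.heckeU k p f := by
  rw [ModularForm.heckeT_eq_heckeU_add, add_sub_cancel_left, dsa_D]

theorem dsbt_isNice_D (k : ℤ) (p : ℕ) {f : ℍ → ℂ} (hf : Fermat.Agent.S23.IsNice f) :
    Fermat.Agent.S23.IsNice (dsa_D k p f) := by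
  rw [dsbt_D_eq]
  exact (dsbt_isNice_heckeT k p hf).sub (dsbt_isNice_U k p hf)

/-- `q`-coefficients of `D f`. -/
theorem dsbt_qCoeff_D (k : ℤ) {p : ℕ} (hp : p ≠ 0) {f : ℍ → ℂ}
    (hf : Fermat.Agent.S23.IsNice f) (n : ℕ) :
    qCoeff (dsa_D k p f) n = if p ∣ n then (p : ℂ) ^ (k - 1) * qCoeff f (n / p) else 0 := by
  have hU := UpperHalfPlane.qCoeff_heckeU hf.periodic hf.holo hf.bdd k hp n
  have hT := UpperHalfPlane.qCoeff_heckeT hf.periodic hf.holo hf.bdd k hp n
  rw [ModularForm.coeffHeckeT_eq_coeffHeckeU_add, ← hU] at hT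
  have hsub : qExpansion 1 (ModularForm.heckeT k p f - ModularForm.heckeU k p f) =
      qExpansion 1 (ModularForm.heckeT k p f) - qExpansion 1 (ModularForm.heckeU k p f) :=
    UpperHalfPlane.qExpansion_sub (dsbt_isNice_heckeT k p hf).analyticAt
      (dsbt_isNice_U k p hf).analyticAt
  rw [dsbt_D_eq, qCoeff, hsub, map_sub]
  rw [qCoeff, qCoeff] at hT
  rw [hT, add_sub_cancel_left]

/-- **B-0a**. -/
theorem dsb_isNice_T (k : ℤ) {p : ℕ} (hp : p ≠ 0) (c : ℂ) {f : ℍ → ℂ}
    (hf : Fermat.Agent.S23.IsNice f) : Fermat.Agent.S23.IsNice (dsa_T k p c f) := by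
  rw [dsa_T]
  exact (dsbt_isNice_U k p hf).add ((dsbt_isNice_D k p hf).smul c)

theorem dsb_qCoeff_T (k : ℤ) {p : ℕ} (hp : p ≠ 0) (c : ℂ) {f : ℍ → ℂ}
    (hf : Fermat.Agent.S23.IsNice f) (n : ℕ) :
    qCoeff (dsa_T k p c f) n =
      qCoeff f (p * n) + c * (p : ℂ) ^ (k - 1) * (if p ∣ n then qCoeff f (n / p) else 0) := by
  have hU := UpperHalfPlane.qCoeff_heckeU hf.periodic hf.holo hf.bdd k hp n
  rw [ModularForm.coeffHeckeU_apply, mul_comm n p] at hU
  rw [dsa_T, qCoeff, (dsbt_isNice_U k p hf).qExpansion_add ((dsbt_isNice_D k p hf).smul c),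
    ((dsbt_isNice_D k p hf)).qExpansion_smul c, map_add, PowerSeries.coeff_smul, smul_eq_mul]
  have hD := dsbt_qCoeff_D k hp hf n
  rw [qCoeff] at hU hD
  rw [hU, hD]
  split_ifs <;> ring

end Fermat.Agent.DS
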