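import Mathlib
import Fermat.Prelude.Def_FLTPrelim_Modularity
import Fermat.Prelude.Def_ModularForm_HeckeOperator
import Fermat.Agent.S23.Defs
import Fermat.Agent.S23.Nice
import Fermat.Agent.DS.A.Spec
import Fermat.Agent.DS.B.Defs
import Fermat.Agent.DS.B.TCoeff
import Fermat.Agent.DS.B.NebenInv
import Fermat.Agent.DS.R.Main

/-!
# Program DS, package (B), row B-1: conjugation is compatible with the nebentypus (helper3)
-/

set_option autoImplicit false

noncomputable section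

namespace Fermat.Agent.DS

open CongruenceSubgroup UpperHalfPlane ModularFormClass
open scoped MatrixGroups ModularForm Real

theorem dsbc_one_mem_strictPeriods (N : ℕ) :
    (1 : ℝ) ∈ (Gamma1 N : Subgroup (GL (Fin 2) ℝ)).strictPeriods := by
  rw [strictPeriods_Gamma1]
  exact AddSubgroup.mem_zmultiples 1

/-- A cusp form of level `Γ₁(N)` is a nice function. -/
theorem dsbc_isNice (N : ℕ) [NeZero N] (k : ℤ) (f : CuspForm (Gamma1 N) k) :
    Fermat.Agent.S23.IsNice ⇑f where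
  holo := ModularFormClass.holo f
  periodic := SlashInvariantFormClass.periodic_comp_ofComplex f (dsbc_one_mem_strictPeriods N)
  bdd := ModularFormClass.bdd_at_infty f

/-- `Γ₁(N)`-invariance of a cusp form of level `Γ₁(N)`. -/
theorem dsbc_inv1 (N : ℕ) (k : ℤ) (f : CuspForm (Gamma1 N) k) : dsa_Inv1 N k ⇑f := by
  intro δ hδ
  exact SlashInvariantFormClass.slash_action_eq f (δ : GL (Fin 2) ℝ) ⟨δ, hδ, rfl⟩

/-- **B-1**.  Conjugation is compatible with the nebentypus. -/
theorem dsb_conj_neben (N : ℕ) [NeZero N] (hN : 3 ≤ N) (k : ℤ) (χ : DirichletCharacter ℂ N)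
    (σ : ℂ →+* ℂ) (f g : CuspForm (Gamma1 N) k) (hf : dsa_Neben N k χ ⇑f)
    (hg : ∀ n, qCoeff g n = σ (qCoeff f n)) : dsa_Neben N k (χ.ringHomComp σ) ⇑g := by
  apply dsb_neben_of_inv
  intro p hp hpN
  obtain ⟨H, hH⟩ := dsa_T_cusp N k p hp hpN χ f hf
  obtain ⟨H', hH'⟩ := ds_exists_conj N hN k H σ
  have hnf := dsbc_isNice N k f
  have hng := dsbc_isNice N k g
  have hχ : (χ.ringHomComp σ) (p : ZMod N) = σ (χ (p : ZMod N)) :=
    MulChar.ringHomComp_apply χ σ _
  rw [hχ]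
  have hnT := dsb_isNice_T k hp.ne_zero (σ (χ (p : ZMod N))) hng
  have hnH' := dsbc_isNice N k H'
  have heq : dsa_T k p (σ (χ (p : ZMod N))) ⇑g = ⇑H' := by
    apply hnT.eq_of_qExpansion_eq hnH'
    ext n
    have h1 := dsb_qCoeff_T k hp.ne_zero (σ (χ (p : ZMod N))) hng n
    have h2 := dsb_qCoeff_T k hp.ne_zero (χ (p : ZMod N)) hnf n
    have h3 := hH' n
    rw [qCoeff] at h1 h3
    rw [hg, hg] at h1
    have hσp : σ ((p : ℂ) ^ (k - 1)) = (p : ℂ) ^ (k - 1) := by
      rw [map_zpow₀, map_natCast σ p]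
    rw [h1, h3, hH, h2, map_add, map_mul, map_mul, hσp, apply_ite σ, map_zero]
  rw [heq]
  exact dsbc_inv1 N k H'

end Fermat.Agent.DS
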