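import Mathlib

/-!
# DS-B (helper28): the ring of eigenvalues of the endomorphisms preserving a lattice

Abstract linear algebra behind rows B-4 (`ds_isIntegral`) and B-5 (`ds_field_finite`):
`W` an `E`-vector space, `L ⊆ W` a finitely generated `R₀`-submodule spanning `W` over `E`,
`f ≠ 0` in `W`.  The set of all `c : E` such that `t f = c • f` for some `E`-linear endomorphism
`t` of `W` with `t L ⊆ L` is an `R₀`-subalgebra of `E` which is finitely generated as an
`R₀`-module (so all its elements are integral over `R₀`).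
-/

set_option autoImplicit false

namespace Fermat.Agent.DS

section abstract

variable {R₀ E W : Type*} [CommRing R₀] [Field E] [Algebra R₀ E]
  [AddCommGroup W] [Module E W] [Module R₀ W] [IsScalarTower R₀ E W]

variable (E) in
/-- the ring of eigenvalues on `f` of the `E`-linear endomorphisms preserving the lattice `L`. -/
def dsbiEigenRing (L : Submodule R₀ W) (f : W) : Subalgebra R₀ E where
  carrier := {c | ∃ t : Module.End E W, (∀ w ∈ L, t w ∈ L) ∧ t f = c • f}
  mul_mem' := by
    rintro a b ⟨t, ht, hta⟩ ⟨s, hs, hsb⟩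
    refine ⟨t * s, fun w hw ↦ ht _ (hs w hw), ?_⟩
    rw [Module.End.mul_apply, hsb, map_smul, hta, smul_smul, mul_comm]
  add_mem' := by
    rintro a b ⟨t, ht, hta⟩ ⟨s, hs, hsb⟩
    refine ⟨t + s, fun w hw ↦ L.add_mem (ht w hw) (hs w hw), ?_⟩
    rw [LinearMap.add_apply, hta, hsb, add_smul]
  algebraMap_mem' := by
    intro r
    refine ⟨algebraMap R₀ E r • (1 : Module.End E W), fun w hw ↦ ?_, ?_⟩
    · rw [LinearMap.smul_apply, Module.End.one_apply, algebraMap_smul E r w]
      exact L.smul_mem r hw
    · rw [LinearMap.smul_apply, Module.End.one_apply]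

theorem dsbi_mem_eigenRing {L : Submodule R₀ W} {f : W} {c : E} (t : Module.End E W)
    (ht : ∀ w ∈ L, t w ∈ L) (htf : t f = c • f) : c ∈ dsbiEigenRing E L f :=
  ⟨t, ht, htf⟩

theorem dsbi_eigenRing_fg [IsNoetherianRing R₀] (L : Submodule R₀ W) (hL : L.FG)
    (hspan : Submodule.span E (L : Set W) = ⊤) (f : W) (hf : f ≠ 0) :
    (dsbiEigenRing E L f).toSubmodule.FG := by
  classical
  obtain ⟨S, hS⟩ := hL
  -- the `R₀`-module of the endomorphisms preserving `L`
  let 𝕊 : Submodule R₀ (Module.End E W) :=
    { carrier := {t | ∀ w ∈ L, t w ∈ L}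
      add_mem' := fun {a b} ha hb w hw ↦ by
        rw [LinearMap.add_apply]; exact L.add_mem (ha w hw) (hb w hw)
      zero_mem' := fun w _ ↦ by rw [LinearMap.zero_apply]; exact L.zero_mem
      smul_mem' := fun r t ht w hw ↦ by
        rw [LinearMap.smul_apply]; exact L.smul_mem r (ht w hw) }
  have : IsNoetherian R₀ L := isNoetherian_of_fg_of_noetherian L ⟨S, hS⟩
  have hSL : ∀ s : S, (s : W) ∈ L := fun s ↦ hS ▸ Submodule.subset_span s.2
  let Φ : 𝕊 →ₗ[R₀] (S → L) :=
    { toFun := fun t s ↦ ⟨t.1 s.1, t.2 s.1 (hSL s)⟩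
      map_add' := fun a b ↦ by
        funext s; apply Subtype.ext; simp
      map_smul' := fun r a ↦ by
        funext s; apply Subtype.ext; simp }
  have hΦ : Function.Injective Φ := by
    rw [injective_iff_map_eq_zero]
    intro t ht
    have h1 : ∀ s ∈ S, t.1 s = 0 := fun s hs ↦ by
      have := congrArg Subtype.val (congrFun ht ⟨s, hs⟩)
      simpa [Φ] using this
    have h2 : ∀ w ∈ L, t.1 w = 0 := by
      intro w hw
      rw [← hS] at hw
      induction hw using Submodule.span_induction with
      | mem x hx => exact h1 x hx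
      | zero => exact map_zero _
      | add x y _ _ hx hy => rw [map_add, hx, hy, add_zero]
      | smul r x _ hx =>
        rw [← algebraMap_smul E r x, map_smul, hx, smul_zero]
    have h3 : ∀ w, t.1 w = 0 := by
      intro w
      have hw : w ∈ Submodule.span E (L : Set W) := hspan ▸ Submodule.mem_top
      induction hw using Submodule.span_induction with
      | mem x hx => exact h2 x hx
      | zero => exact map_zero _
      | add x y _ _ hx hy => rw [map_add, hx, hy, add_zero]
      | smul c x _ hx => rw [map_smul, hx, smul_zero]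
    exact Subtype.ext (LinearMap.ext fun w ↦ by rw [h3 w]; rfl)
  have : IsNoetherian R₀ 𝕊 := isNoetherian_of_injective Φ hΦ
  let ev : 𝕊 →ₗ[R₀] W :=
    { toFun := fun t ↦ t.1 f
      map_add' := fun a b ↦ by simp
      map_smul' := fun r a ↦ by simp }
  let μ : E →ₗ[R₀] W :=
    { toFun := fun c ↦ c • f
      map_add' := fun a b ↦ add_smul a b f
      map_smul' := fun r a ↦ by simp }
  have hμ : Function.Injective μ := smul_left_injective E hf
  have hle : (dsbiEigenRing E L f).toSubmodule.map μ ≤ LinearMap.range ev := by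
    rintro _ ⟨c, ⟨t, ht, htf⟩, rfl⟩
    exact ⟨⟨t, ht⟩, htf⟩
  have hfg : (LinearMap.range ev).FG := by
    rw [LinearMap.range_eq_map]
    exact (Module.Finite.fg_top).map ev
  have : IsNoetherian R₀ (LinearMap.range ev) := isNoetherian_of_fg_of_noetherian _ hfg
  exact Submodule.fg_of_fg_map_injective μ hμ (isNoetherian_submodule.mp this _ hle)

end abstract

end Fermat.Agent.DS
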