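import Mathlib
import Fermat.Prelude.Def_FLTPrelim_Modularity
import Fermat.Prelude.Def_ModularForm_HeckeOperator
import Fermat.Agent.DS.A.Spec
import Fermat.Agent.DS.B.Defs

/-!
# Program DS, package (B), row B-0c: the Hecke operator `T_p` on `S_k(N, χ)` (helper3)

Uses only the Spec-level statements `dsa_T_neben` (A4) and `dsa_T_cusp` (A5) of package (A).
-/

set_option autoImplicit false

noncomputable section

namespace Fermat.Agent.DS

open CongruenceSubgroup UpperHalfPlane ModularFormClass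
open scoped MatrixGroups ModularForm Real

theorem dsbh_D_add (k : ℤ) (p : ℕ) (g h : ℍ → ℂ) :
    dsa_D k p (g + h) = dsa_D k p g + dsa_D k p h := by
  rw [dsa_D, dsa_D, dsa_D, SlashAction.add_slash]

theorem dsbh_D_smul (k : ℤ) (p : ℕ) (c : ℂ) (g : ℍ → ℂ) :
    dsa_D k p (c • g) = c • dsa_D k p g := by
  rw [dsa_D, dsa_D, ModularForm.smul_slash, ModularForm.σ_heckeDiagMatrix]
  rfl

theorem dsbh_T_add (k : ℤ) (p : ℕ) (c : ℂ) (g h : ℍ → ℂ) :
    dsa_T k p c (g + h) = dsa_T k p c g + dsa_T k p c h := by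
  rw [dsa_T, dsa_T, dsa_T, ModularForm.heckeU_add, dsbh_D_add, smul_add]
  abel

theorem dsbh_T_smul (k : ℤ) (p : ℕ) (c a : ℂ) (g : ℍ → ℂ) :
    dsa_T k p c (a • g) = a • dsa_T k p c g := by
  rw [dsa_T, dsa_T, ModularForm.heckeU_smul, dsbh_D_smul, smul_add, smul_comm]

/-- **B-0c**.  The Hecke operator `T_p` on `S_k(N, χ)`. -/
theorem dsb_exists_T (N : ℕ) [NeZero N] (k : ℤ) (χ : DirichletCharacter ℂ N) {p : ℕ}
    (hp : p.Prime) (hpN : ¬ p ∣ N) :
    ∃ T : dsbW N k χ →ₗ[ℂ] dsbW N k χ, ∀ f : dsbW N k χ,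
      ⇑(T f : CuspForm (Gamma1 N) k) = dsa_T k p (χ (p : ZMod N)) ⇑(f : CuspForm (Gamma1 N) k) := by
  have hex : ∀ f : dsbW N k χ, ∃ F : dsbW N k χ,
      ⇑(F : CuspForm (Gamma1 N) k) = dsa_T k p (χ (p : ZMod N)) ⇑(f : CuspForm (Gamma1 N) k) := by
    intro f
    obtain ⟨F, hF⟩ := dsa_T_cusp N k p hp hpN χ f.1 f.2
    refine ⟨⟨F, ?_⟩, hF⟩
    rw [mem_dsbW, hF]
    exact dsa_T_neben N k p hp hpN χ _ f.2
  choose T hT using hex
  refine ⟨{ toFun := T
            map_add' := ?_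
            map_smul' := ?_ }, hT⟩
  · intro f g
    apply Subtype.ext
    apply DFunLike.coe_injective
    rw [hT, Submodule.coe_add, Submodule.coe_add, FunLike.coe_add, FunLike.coe_add, hT, hT,
      dsbh_T_add]
  · intro a f
    apply Subtype.ext
    apply DFunLike.coe_injective
    rw [hT, RingHom.id_apply, Submodule.coe_smul, Submodule.coe_smul, FunLike.coe_smul,
      FunLike.coe_smul, hT, dsbh_T_smul]

end Fermat.Agent.DS
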