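import Mathlib
import Fermat.Prelude.Def_FLTPrelim_Modularity
import Fermat.Agent.S23.AutC
import Fermat.Agent.DS.A.All
import Fermat.Agent.DS.R.Main
import Fermat.Agent.DS.B.Defs
import Fermat.Agent.DS.B.ConjNeben

/-!
# Program DS, package (B), row B-3: the `ℤ[χ]`-lattice of `S_k(N, χ)` spans

* `dsb_conj_comp`     : conjugation permutes the nebentypus components.
* `ds_conj_diamond`   : conjugation commutes with the diamond operators.
* `dsb_diamond_rational` : `⟨d⟩` preserves rationality of the `q`-expansion.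
* `dsb_span_lattice`  : `S_k(N, χ)` is spanned by its forms with coefficients in `ℤ[χ]`.
-/

set_option autoImplicit false

noncomputable section

namespace Fermat.Agent.DS

open CongruenceSubgroup UpperHalfPlane ModularFormClass Fermat.Agent.S23
open scoped MatrixGroups ModularForm

variable {N : ℕ} [NeZero N] {k : ℤ}

theorem dsbl_qCoeff_sum {ι : Type*} (s : Finset ι) (c : ι → CuspForm (Gamma1 N) k) (n : ℕ) :
    qCoeff (⇑(∑ i ∈ s, c i)) n = ∑ i ∈ s, qCoeff (c i) n := by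
  have := congrFun (map_sum (dsrCoeffLin N k) c s) n
  simpa [dsrCoeffLin_apply] using this

theorem dsbl_ext (f g : CuspForm (Gamma1 N) k) (h : ∀ n, qCoeff f n = qCoeff g n) : f = g :=
  dsrCoeffLin_injective N k (funext h)

/-- composition with `σ` is a permutation of the Dirichlet characters. -/
def dsblPerm (N : ℕ) [NeZero N] (σ : ℂ →+* ℂ) :
    DirichletCharacter ℂ N ≃ DirichletCharacter ℂ N :=
  Equiv.ofBijective (fun ψ => ψ.ringHomComp σ) (by
    apply Function.Injective.bijective_of_finite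
    intro ψ ψ' h
    ext a
    have := congrArg (fun χ : DirichletCharacter ℂ N => χ a) h
    simp only [MulChar.ringHomComp_apply] at this
    exact σ.injective this)

@[simp] theorem dsblPerm_apply (σ : ℂ →+* ℂ) (ψ : DirichletCharacter ℂ N) :
    dsblPerm N σ ψ = ψ.ringHomComp σ := rfl

/-- conjugation permutes the nebentypus components. -/
theorem dsb_conj_comp (hN : 3 ≤ N) (σ : ℂ →+* ℂ) (h h' : CuspForm (Gamma1 N) k)
    (hh : ∀ n, qCoeff h' n = σ (qCoeff h n)) (ψ : DirichletCharacter ℂ N) (n : ℕ) :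
    qCoeff (dsa_comp N k (ψ.ringHomComp σ) h') n = σ (qCoeff (dsa_comp N k ψ h) n) := by
  classical
  choose c hc using fun ψ : DirichletCharacter ℂ N => ds_exists_conj N hN k (dsa_comp N k ψ h) σ
  have hcneb : ∀ ψ, dsa_Neben N k (ψ.ringHomComp σ) ⇑(c ψ) := fun ψ =>
    dsb_conj_neben N hN k ψ σ (dsa_comp N k ψ h) (c ψ) (dsa_comp_neben N k ψ h) (hc ψ)
  set e := dsblPerm N σ with he
  have hc'neb : ∀ ψ', dsa_Neben N k ψ' ⇑(c (e.symm ψ')) := by
    intro ψ'
    have := hcneb (e.symm ψ')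
    rw [← dsblPerm_apply, ← he, Equiv.apply_symm_apply] at this
    exact this
  have hsum : ∑ ψ', c (e.symm ψ') = h' := by
    rw [Equiv.sum_comp e.symm c]
    apply dsbl_ext
    intro n
    rw [dsbl_qCoeff_sum, hh, ← dsa_sum_comp N k h, dsbl_qCoeff_sum, map_sum]
    exact Finset.sum_congr rfl fun ψ _ => hc ψ n
  have := dsa_decomp_eq_comp N k h' (fun ψ' => c (e.symm ψ')) hc'neb hsum (e ψ)
  simp only [Equiv.symm_apply_apply] at this
  rw [← dsblPerm_apply, ← he, ← this]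
  exact hc ψ n

theorem dsbl_diamond_comp (d : (ZMod N)ˣ) (ψ : DirichletCharacter ℂ N)
    (h : CuspForm (Gamma1 N) k) :
    dsa_diamond N k d (dsa_comp N k ψ h) = ψ (d : ZMod N) • dsa_comp N k ψ h := by
  apply DFunLike.coe_injective
  rw [dsa_diamond_of_neben N k ψ d _ (dsa_comp_neben N k ψ h), FunLike.coe_smul]

theorem dsbl_qCoeff_diamond (d : (ZMod N)ˣ) (h : CuspForm (Gamma1 N) k) (n : ℕ) :
    qCoeff (dsa_diamond N k d h) n =
      ∑ ψ : DirichletCharacter ℂ N, ψ (d : ZMod N) * qCoeff (dsa_comp N k ψ h) n := by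
  conv_lhs => rw [← dsa_sum_comp N k h, map_sum]
  rw [dsbl_qCoeff_sum]
  refine Finset.sum_congr rfl fun ψ _ => ?_
  rw [dsbl_diamond_comp, dsr_qCoeff_smul]

/-- **(old R-5)** conjugation commutes with the diamond operators. -/
theorem ds_conj_diamond (hN : 3 ≤ N) (d : (ZMod N)ˣ) (h h' : CuspForm (Gamma1 N) k)
    (σ : ℂ →+* ℂ) (hh : ∀ n, qCoeff h' n = σ (qCoeff h n)) (n : ℕ) :
    qCoeff (dsa_diamond N k d h') n = σ (qCoeff (dsa_diamond N k d h) n) := by
  rw [dsbl_qCoeff_diamond, dsbl_qCoeff_diamond, map_sum, ← Equiv.sum_comp (dsblPerm N σ)]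
  refine Finset.sum_congr rfl fun ψ _ => ?_
  rw [dsblPerm_apply, dsb_conj_comp hN σ h h' hh ψ n, MulChar.ringHomComp_apply, map_mul]

/-- `⟨d⟩` preserves rationality of the `q`-expansion. -/
theorem dsb_diamond_rational (hN : 3 ≤ N) (d : (ZMod N)ˣ) (h : CuspForm (Gamma1 N) k)
    (hh : ∀ n, qCoeff h n ∈ Set.range (algebraMap ℚ ℂ)) (n : ℕ) :
    qCoeff (dsa_diamond N k d h) n ∈ Set.range (algebraMap ℚ ℂ) := by
  by_contra hx
  obtain ⟨σ, hσ⟩ := exists_ringHom_ne hx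
  apply hσ
  refine (ds_conj_diamond hN d h h σ (fun m => ?_) n).symm
  obtain ⟨r, hr⟩ := hh m
  rw [← hr]
  simp

/-- the projector onto the `χ`-component, as a linear map. -/
def dsblProj (N : ℕ) [NeZero N] (k : ℤ) (χ : DirichletCharacter ℂ N) :
    CuspForm (Gamma1 N) k →ₗ[ℂ] CuspForm (Gamma1 N) k :=
  ((N.totient : ℂ)⁻¹) • ∑ d : (ZMod N)ˣ, χ ((d⁻¹ : (ZMod N)ˣ) : ZMod N) • dsa_diamond N k d

theorem dsblProj_apply (χ : DirichletCharacter ℂ N) (f : CuspForm (Gamma1 N) k) :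
    dsblProj N k χ f = dsa_comp N k χ f := by
  simp [dsblProj, dsa_comp, LinearMap.sum_apply]

theorem dsbl_qCoeff_comp (χ : DirichletCharacter ℂ N) (h : CuspForm (Gamma1 N) k) (n : ℕ) :
    qCoeff (dsa_comp N k χ h) n = (N.totient : ℂ)⁻¹ *
      ∑ d : (ZMod N)ˣ, χ ((d⁻¹ : (ZMod N)ˣ) : ZMod N) * qCoeff (dsa_diamond N k d h) n := by
  unfold dsa_comp
  rw [dsr_qCoeff_smul, dsbl_qCoeff_sum]
  congr 1
  refine Finset.sum_congr rfl fun d _ => ?_
  rw [dsr_qCoeff_smul]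

theorem dsbl_char_mem (χ : DirichletCharacter ℂ N) (a : ZMod N) : χ a ∈ dsbO N χ :=
  Subring.subset_closure ⟨a, rfl⟩

/-- a form with integer coefficients has a multiple of its `χ`-component in the lattice. -/
theorem dsbl_comp_mem (hN : 3 ≤ N) (χ : DirichletCharacter ℂ N) (h : CuspForm (Gamma1 N) k)
    (hh : ∀ n, ∃ z : ℤ, qCoeff h n = z) :
    ∃ M : ℕ, M ≠ 0 ∧ ∀ n, qCoeff (⇑((M : ℂ) • dsa_comp N k χ h)) n ∈ dsbO N χ := by
  classical
  have hrat : ∀ n, qCoeff h n ∈ Set.range (algebraMap ℚ ℂ) := fun n => by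
    obtain ⟨z, hz⟩ := hh n
    exact ⟨(z : ℚ), by rw [hz]; simp⟩
  have hbdd : ∀ d : (ZMod N)ˣ, IsBddRat (qExpansion 1 (dsa_diamond N k d h)) := fun d =>
    ds_isBddRat_of_rational N hN k _ (dsb_diamond_rational hN d h hrat)
  choose Md hMd0 hMd using hbdd
  have hφ : N.totient ≠ 0 := (Nat.totient_pos.mpr (Nat.pos_of_ne_zero (NeZero.ne N))).ne'
  refine ⟨N.totient * ∏ d, Md d, mul_ne_zero hφ (Finset.prod_ne_zero_iff.mpr fun d _ => hMd0 d),
    fun n => ?_⟩
  have hφC : (N.totient : ℂ) ≠ 0 := by exact_mod_cast hφ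
  rw [dsr_qCoeff_smul, dsbl_qCoeff_comp]
  push_cast
  have e : ((N.totient : ℂ) * ∏ d, (Md d : ℂ)) * ((N.totient : ℂ)⁻¹ *
      ∑ d : (ZMod N)ˣ, χ ((d⁻¹ : (ZMod N)ˣ) : ZMod N) * qCoeff (dsa_diamond N k d h) n) =
      ∑ d : (ZMod N)ˣ, χ ((d⁻¹ : (ZMod N)ˣ) : ZMod N) *
        ((∏ d' ∈ Finset.univ.erase d, (Md d' : ℂ)) *
          ((Md d : ℂ) * qCoeff (dsa_diamond N k d h) n)) := by
    rw [mul_mul_mul_comm, mul_inv_cancel₀ hφC, one_mul, Finset.mul_sum]
    refine Finset.sum_congr rfl fun d _ => ?_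
    rw [← Finset.mul_prod_erase Finset.univ (fun d' => (Md d' : ℂ)) (Finset.mem_univ d)]
    ring
  rw [e]
  refine Subring.sum_mem _ fun d _ => ?_
  refine Subring.mul_mem _ (dsbl_char_mem χ _) (Subring.mul_mem _ ?_ ?_)
  · refine Subring.prod_mem _ fun d' _ => ?_
    exact natCast_mem _ _
  · obtain ⟨z, hz⟩ := hMd d n
    unfold qCoeff
    rw [hz]
    exact intCast_mem _ _

/-- **B-3**.  `S_k(N, χ)` is spanned by its forms with coefficients in `ℤ[χ]`. -/
theorem dsb_span_lattice (N : ℕ) [NeZero N] (hN : 3 ≤ N) (k : ℤ) (χ : DirichletCharacter ℂ N) :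
    dsbW N k χ ≤ Submodule.span ℂ
      {g : CuspForm (Gamma1 N) k | g ∈ dsbW N k χ ∧ ∀ n, qCoeff g n ∈ dsbO N χ} := by
  intro f hf
  have hf' : dsblProj N k χ f = f := by
    rw [dsblProj_apply, dsa_comp_of_neben N k χ χ f hf, if_pos rfl]
  have hmem : f ∈ Submodule.span ℂ {h : CuspForm (Gamma1 N) k | ∀ n, ∃ z : ℤ, qCoeff h n = z} := by
    rw [ds_span_integral N hN k]
    trivial
  rw [← hf']
  have hmap := Submodule.mem_map_of_mem (f := dsblProj N k χ) hmem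
  rw [Submodule.map_span] at hmap
  refine (Submodule.span_le.mpr ?_) hmap
  rintro _ ⟨h, hh, rfl⟩
  obtain ⟨M, hM0, hM⟩ := dsbl_comp_mem hN χ h hh
  have hMC : (M : ℂ) ≠ 0 := by exact_mod_cast hM0
  have hg : (M : ℂ) • dsa_comp N k χ h ∈
      {g : CuspForm (Gamma1 N) k | g ∈ dsbW N k χ ∧ ∀ n, qCoeff g n ∈ dsbO N χ} :=
    ⟨Submodule.smul_mem _ _ (dsa_comp_neben N k χ h), hM⟩
  have heq : dsblProj N k χ h = ((M : ℂ)⁻¹) • ((M : ℂ) • dsa_comp N k χ h) := by
    rw [dsblProj_apply, smul_smul, inv_mul_cancel₀ hMC, one_smul]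
  rw [SetLike.mem_coe, heq]
  exact Submodule.smul_mem _ _ (Submodule.subset_span hg)

end Fermat.Agent.DS
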