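import Mathlib
import Fermat.Prelude.Def_FLTPrelim_Modularity
import Fermat.Prelude.Def_ModularForm_HeckeOperator
import Fermat.Agent.S23.Defs
import Fermat.Agent.S23.Nice
import Fermat.Agent.DS.A.All
import Fermat.Agent.DS.B.Defs
import Fermat.Agent.DS.R.Main
import Fermat.Agent.DS.B.TCoeff
import Fermat.Agent.DS.B.HeckeW
import Fermat.Agent.DS.B.Lattice
import Fermat.Agent.DS.B.EigenRing

/-!
# DS-B, row B-4 : integrality of the Hecke eigenvalues (helper28)

`ds_isIntegral` VERBATIM from `Fermat/Agent/DS/B/Spec.lean` (helper16).  The `ℤ`-lattice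
`dsbiLat N k χ` of the forms of nebentypus `χ` with all coefficients in `ℤ[χ]` is finitely
generated (Sturm), spans `S_k(N, χ)` (B-3) and is stable under `T_p` (B-0a) and under `ℤ[χ]`;
the ring `dsbiRing` of the eigenvalues on `f` of all the endomorphisms preserving the lattice
is a finitely generated `ℤ`-module containing all `a_p` (`p ∤ N`) and all values of `ε`.
-/

set_option autoImplicit false

noncomputable section

namespace Fermat.Agent.DS

open CongruenceSubgroup UpperHalfPlane ModularFormClass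
open scoped MatrixGroups ModularForm

theorem dsbi_one_mem_strictPeriods (N : ℕ) :
    (1 : ℝ) ∈ (Gamma1 N : Subgroup (GL (Fin 2) ℝ)).strictPeriods := by
  rw [strictPeriods_Gamma1]
  exact AddSubgroup.mem_zmultiples 1

theorem dsbi_isNice {N : ℕ} [NeZero N] {k : ℤ} (g : CuspForm (Gamma1 N) k) :
    Fermat.Agent.S23.IsNice (⇑g : ℍ → ℂ) :=
  Fermat.Agent.S23.isNice_of_modularForm (dsbi_one_mem_strictPeriods N) g

/-- the `n`-th `q`-coefficient as a linear functional on `S_k(Γ₁(N))`. -/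
def dsbiCoeff (N : ℕ) [NeZero N] (k : ℤ) (n : ℕ) : CuspForm (Gamma1 N) k →ₗ[ℂ] ℂ where
  toFun g := qCoeff g n
  map_add' g₁ g₂ := by
    change qCoeff (⇑(g₁ + g₂)) n = qCoeff (⇑g₁) n + qCoeff (⇑g₂) n
    rw [FunLike.coe_add, qCoeff, qCoeff, qCoeff, (dsbi_isNice g₁).qExpansion_add (dsbi_isNice g₂),
      map_add]
  map_smul' c g := by
    change qCoeff (⇑(c • g)) n = c • qCoeff (⇑g) n
    rw [FunLike.coe_smul, qCoeff, qCoeff, (dsbi_isNice g).qExpansion_smul, PowerSeries.coeff_smul,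
      smul_eq_mul]

theorem dsbiCoeff_apply (N : ℕ) [NeZero N] (k : ℤ) (n : ℕ) (g : CuspForm (Gamma1 N) k) :
    dsbiCoeff N k n g = qCoeff g n := rfl

theorem dsbi_isIntegral_char {N : ℕ} [NeZero N] (χ : DirichletCharacter ℂ N) (a : ZMod N) :
    IsIntegral ℤ (χ a) := by
  by_cases ha : IsUnit a
  · obtain ⟨u, rfl⟩ := ha
    have h1 : (χ u) ^ (Fintype.card (ZMod N)ˣ) = 1 := by
      rw [← map_pow, ← Units.val_pow_eq_pow_val, pow_card_eq_one, Units.val_one, map_one]
    exact IsIntegral.of_pow Fintype.card_pos (h1 ▸ isIntegral_one)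
  · rw [χ.map_nonunit ha]
    exact isIntegral_zero

theorem dsbi_char_mem {N : ℕ} (χ : DirichletCharacter ℂ N) (a : ZMod N) : χ a ∈ dsbO N χ :=
  Subring.subset_closure ⟨a, rfl⟩

/-- every element of `ℤ[χ]` is integral. -/
theorem dsbi_isIntegral_of_mem {N : ℕ} [NeZero N] (χ : DirichletCharacter ℂ N) {x : ℂ}
    (hx : x ∈ dsbO N χ) : IsIntegral ℤ x := by
  induction hx using Subring.closure_induction with
  | mem x hx =>
    obtain ⟨a, rfl⟩ := hx
    exact dsbi_isIntegral_char χ a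
  | zero => exact isIntegral_zero
  | one => exact isIntegral_one
  | add x y _ _ hx hy => exact hx.add hy
  | neg x _ hx => exact hx.neg
  | mul x y _ _ hx hy => exact hx.mul hy

/-- the lattice of the forms of nebentypus `χ` with all coefficients in `ℤ[χ]`. -/
def dsbiLat (N : ℕ) [NeZero N] (k : ℤ) (χ : DirichletCharacter ℂ N) :
    Submodule ℤ (dsbW N k χ) :=
  AddSubgroup.toIntSubmodule
    { carrier := {g | ∀ n, dsbiCoeff N k n (g : CuspForm (Gamma1 N) k) ∈ dsbO N χ}
      add_mem' := fun {a b} ha hb n ↦ by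
        rw [Submodule.coe_add, map_add]
        exact (dsbO N χ).add_mem (ha n) (hb n)
      zero_mem' := fun n ↦ by
        rw [Submodule.coe_zero, map_zero]
        exact (dsbO N χ).zero_mem
      neg_mem' := fun {a} ha n ↦ by
        rw [Submodule.coe_neg, map_neg]
        exact (dsbO N χ).neg_mem (ha n) }

theorem dsbi_mem_lat {N : ℕ} [NeZero N] {k : ℤ} {χ : DirichletCharacter ℂ N} {g : dsbW N k χ} :
    g ∈ dsbiLat N k χ ↔ ∀ n, qCoeff (g : CuspForm (Gamma1 N) k) n ∈ dsbO N χ := Iff.rfl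

theorem dsbi_lat_fg (N : ℕ) [NeZero N] (k : ℤ) (χ : DirichletCharacter ℂ N) :
    (dsbiLat N k χ).FG := by
  obtain ⟨B, hB⟩ := dsr_sturm N k
  let Ψ : dsbW N k χ →ₗ[ℤ] (Fin (B + 1) → ℂ) :=
    (LinearMap.pi fun i : Fin (B + 1) ↦
      ((dsbiCoeff N k i).comp (dsbW N k χ).subtype)).restrictScalars ℤ
  have hΨapp : ∀ (g : dsbW N k χ) (i : Fin (B + 1)),
      Ψ g i = qCoeff (g : CuspForm (Gamma1 N) k) i := fun g i ↦ rfl
  have hΨ : Function.Injective Ψ := by
    rw [injective_iff_map_eq_zero]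
    intro g hg
    apply Subtype.ext
    apply hB
    intro n hn
    have := congrFun hg ⟨n, Nat.lt_succ_of_le hn⟩
    rwa [hΨapp] at this
  have hO : (Subalgebra.toSubmodule (Algebra.adjoin ℤ (Set.range χ))).FG :=
    fg_adjoin_of_finite (Set.finite_range χ) (by
      rintro _ ⟨a, rfl⟩
      exact dsbi_isIntegral_char χ a)
  have hpi : (Submodule.pi Set.univ fun _ : Fin (B + 1) ↦
      Subalgebra.toSubmodule (Algebra.adjoin ℤ (Set.range χ))).FG :=
    Submodule.fg_pi fun _ ↦ hO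
  have hle : (dsbiLat N k χ).map Ψ ≤ Submodule.pi Set.univ fun _ : Fin (B + 1) ↦
      Subalgebra.toSubmodule (Algebra.adjoin ℤ (Set.range χ)) := by
    rintro _ ⟨g, hg, rfl⟩ i _
    rw [hΨapp]
    have h1 : qCoeff (g : CuspForm (Gamma1 N) k) i ∈ Subring.closure (Set.range χ) := hg i
    change _ ∈ Algebra.adjoin ℤ (Set.range χ)
    rw [Algebra.adjoin_int]
    exact h1
  have := isNoetherian_of_fg_of_noetherian _ hpi
  exact Submodule.fg_of_fg_map_injective Ψ hΨ (isNoetherian_submodule.mp this _ hle)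

theorem dsbi_lat_span (N : ℕ) [NeZero N] (hN : 3 ≤ N) (k : ℤ) (χ : DirichletCharacter ℂ N) :
    Submodule.span ℂ ((dsbiLat N k χ : Submodule ℤ (dsbW N k χ)) : Set (dsbW N k χ)) = ⊤ := by
  rw [eq_top_iff]
  rintro ⟨g, hg⟩ -
  have h1 := dsb_span_lattice N hN k χ hg
  have key : ∀ v : CuspForm (Gamma1 N) k, v ∈ Submodule.span ℂ
      {g : CuspForm (Gamma1 N) k | g ∈ dsbW N k χ ∧ ∀ n, qCoeff g n ∈ dsbO N χ} →
      ∀ hv : v ∈ dsbW N k χ, (⟨v, hv⟩ : dsbW N k χ) ∈
        Submodule.span ℂ ((dsbiLat N k χ : Submodule ℤ (dsbW N k χ)) : Set (dsbW N k χ)) := by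
    intro v hv
    induction hv using Submodule.span_induction with
    | mem x hx =>
      intro hv
      exact Submodule.subset_span (show (⟨x, hv⟩ : dsbW N k χ) ∈ dsbiLat N k χ from hx.2)
    | zero =>
      intro hv
      exact Submodule.zero_mem _
    | add x y hx hy ihx ihy =>
      intro hv
      have hx' : x ∈ dsbW N k χ :=
        Submodule.span_le.mpr (fun z hz ↦ hz.1) hx
      have hy' : y ∈ dsbW N k χ :=
        Submodule.span_le.mpr (fun z hz ↦ hz.1) hy
      exact Submodule.add_mem _ (ihx hx') (ihy hy')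
    | smul c x hx ihx =>
      intro hv
      have hx' : x ∈ dsbW N k χ :=
        Submodule.span_le.mpr (fun z hz ↦ hz.1) hx
      exact Submodule.smul_mem _ c (ihx hx')
  exact key g h1 hg

section eigen

variable {N : ℕ} [NeZero N] {ε : DirichletCharacter ℂ N} {f : CuspForm (Gamma1 N) 1}

theorem dsbi_neben (h : DsEigen N ε f) : dsa_Neben N 1 ε ⇑f :=
  dsa_nebentypus_one N ε f h.hecke

theorem dsbi_three_le (h : DsEigen N ε f) : 3 ≤ N := by
  by_contra hN
  have hf0 : f = 0 := dsr_eq_zero_of_le_two N (by omega) 1 odd_one f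
  have h1 := h.one
  rw [hf0, FunLike.coe_zero, qCoeff, UpperHalfPlane.qExpansion_zero] at h1
  simp at h1

theorem dsbi_coe_ne_zero (h : DsEigen N ε f) : f ≠ 0 := by
  intro hf0
  have h1 := h.one
  rw [hf0, FunLike.coe_zero, qCoeff, UpperHalfPlane.qExpansion_zero] at h1
  simp at h1

/-- the ring of eigenvalues: a subring of `ℂ`, finitely generated as a `ℤ`-module, containing all
`a_p` (`p ∤ N`) and all values of `ε`. -/
def dsbiRing (h : DsEigen N ε f) : Subalgebra ℤ ℂ :=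
  dsbiEigenRing ℂ (dsbiLat N 1 ε) (⟨f, dsbi_neben h⟩ : dsbW N 1 ε)

theorem dsbiRing_fg (h : DsEigen N ε f) : (dsbiRing h).toSubmodule.FG :=
  dsbi_eigenRing_fg (dsbiLat N 1 ε) (dsbi_lat_fg N 1 ε) (dsbi_lat_span N (dsbi_three_le h) 1 ε) _
    (fun h0 ↦ dsbi_coe_ne_zero h (congrArg Subtype.val h0))

theorem dsbi_char_mem_ring (h : DsEigen N ε f) (a : ZMod N) : ε a ∈ dsbiRing h := by
  refine dsbi_mem_eigenRing (ε a • (1 : Module.End ℂ (dsbW N 1 ε))) (fun w hw n ↦ ?_) ?_
  · rw [LinearMap.smul_apply, Module.End.one_apply, Submodule.coe_smul, map_smul, smul_eq_mul]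
    exact (dsbO N ε).mul_mem (dsbi_char_mem ε a) (hw n)
  · rw [LinearMap.smul_apply, Module.End.one_apply]

theorem dsbi_coeff_mem_ring (h : DsEigen N ε f) {p : ℕ} (hp : p.Prime) (hpN : ¬ p ∣ N) :
    qCoeff f p ∈ dsbiRing h := by
  obtain ⟨T, hT⟩ := dsb_exists_T N 1 ε hp hpN
  refine dsbi_mem_eigenRing T (fun w hw n ↦ ?_) ?_
  · change qCoeff (⇑(T w : CuspForm (Gamma1 N) 1)) n ∈ dsbO N ε
    rw [hT w, dsb_qCoeff_T 1 hp.ne_zero _ (dsbi_isNice (w : CuspForm (Gamma1 N) 1)) n, sub_self,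
      zpow_zero, mul_one]
    refine (dsbO N ε).add_mem (hw _) ((dsbO N ε).mul_mem (dsbi_char_mem ε _) ?_)
    split_ifs
    · exact hw _
    · exact (dsbO N ε).zero_mem
  · apply Subtype.ext
    apply DFunLike.coe_injective
    rw [hT, Submodule.coe_smul, FunLike.coe_smul]
    exact dsa_formal_to_fun N 1 p hp.ne_zero _ _ f (fun n ↦ by
      rw [sub_self, zpow_zero, mul_one]
      exact h.hecke p hp hpN n)

end eigen

/-- **B-4** (`DS/B/Integral.lean`).  Integrality of the eigenvalues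
[the `ℤ`-lattice of B-3 is finitely generated (R-4) and `T_p`-stable (B-0a); Cayley–Hamilton]. -/
theorem ds_isIntegral {N : ℕ} [NeZero N] {ε : DirichletCharacter ℂ N}
    {f : CuspForm (Gamma1 N) 1} (h : DsEigen N ε f) {p : ℕ} (hp : p.Prime) (hpN : ¬ p ∣ N) :
    IsIntegral ℤ (qCoeff f p) :=
  IsIntegral.of_mem_of_fg (dsbiRing h) (dsbiRing_fg h) _ (dsbi_coeff_mem_ring h hp hpN)

end Fermat.Agent.DS
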