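import Mathlib
import Fermat.Prelude.Def_FLTPrelim_Modularity
import Fermat.Prelude.Def_ModularForm_HeckeOperator
import Fermat.Agent.DS.B.Defs
import Fermat.Agent.DS.B.Integral

/-!
# DS-B, row B-5 : the coefficient field is a number field (helper28)

`ds_field_finite` VERBATIM from `Fermat/Agent/DS/B/Spec.lean` (helper16): the generators of
`dsField N ε f` all lie in the ring `dsbiRing h`, a finitely generated `ℤ`-module.
-/

set_option autoImplicit false

noncomputable section

namespace Fermat.Agent.DS

open CongruenceSubgroup UpperHalfPlane ModularFormClass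
open scoped MatrixGroups ModularForm

variable {N : ℕ} [NeZero N] {ε : DirichletCharacter ℂ N} {f : CuspForm (Gamma1 N) 1}

/-- the generators of the coefficient field lie in the ring of eigenvalues. -/
theorem dsbf_gen_mem_ring (h : DsEigen N ε f) {x : ℂ}
    (hx : x ∈ {x | ∃ p : ℕ, p.Prime ∧ ¬ p ∣ N ∧ x = qCoeff f p} ∪
      Set.range (fun a : ZMod N => ε a)) : x ∈ dsbiRing h := by
  rcases hx with ⟨p, hp, hpN, rfl⟩ | ⟨a, rfl⟩
  · exact dsbi_coeff_mem_ring h hp hpN
  · exact dsbi_char_mem_ring h a

/-- **B-5** (`DS/B/Field.lean`).  The coefficient field is a number field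
[`ℚ(ε)`-structure of B-3 is finite dimensional and `T_p`-stable; `t ↦ (eigenvalue of t on f)` is a
ring homomorphism from a finite dimensional `ℚ(ε)`-algebra onto `ℚ(ε)[a_p]`]. -/
theorem ds_field_finite (h : DsEigen N ε f) : FiniteDimensional ℚ (dsField N ε f) := by
  classical
  obtain ⟨G, hG⟩ := dsbiRing_fg h
  have hGmem : ∀ x ∈ (G : Set ℂ), x ∈ dsbiRing h := fun x hx ↦ by
    have h1 : x ∈ Submodule.span ℤ (G : Set ℂ) := Submodule.subset_span hx
    rw [hG] at h1
    exact h1
  have hGint : ∀ x ∈ (G : Set ℂ), IsIntegral ℚ x := fun x hx ↦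
    (IsIntegral.of_mem_of_fg (dsbiRing h) (dsbiRing_fg h) x (hGmem x hx)).tower_top
  have : FiniteDimensional ℚ (IntermediateField.adjoin ℚ (G : Set ℂ)) :=
    IntermediateField.finiteDimensional_adjoin hGint
  have hle : dsField N ε f ≤ IntermediateField.adjoin ℚ (G : Set ℂ) := by
    rw [dsField]
    apply IntermediateField.adjoin_le_iff.mpr
    intro x hx
    have hxR : x ∈ Submodule.span ℤ (G : Set ℂ) := by
      rw [hG]
      exact dsbf_gen_mem_ring h hx
    clear hx
    induction hxR using Submodule.span_induction with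
    | mem y hy => exact IntermediateField.subset_adjoin _ _ hy
    | zero => exact zero_mem _
    | add y z _ _ hy hz => exact add_mem hy hz
    | smul r y _ hy =>
      rw [zsmul_eq_mul]
      exact mul_mem (intCast_mem _ r) hy
  exact Module.Finite.of_injective (IntermediateField.inclusion hle).toLinearMap
    (IntermediateField.inclusion_injective hle)

end Fermat.Agent.DS
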