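import Mathlib
import Fermat.Prelude.Def_FLTPrelim_Modularity
import Fermat.Prelude.Def_ModularForm_HeckeOperator
import Fermat.Agent.DS.B.Defs
import Fermat.Agent.DS.B.Integral
import Fermat.Agent.DS.B.Field

/-!
# DS-B, row B-6 : a normalised model with coefficients in the coefficient field (helper28)

`ds_exists_model` VERBATIM from `Fermat/Agent/DS/B/Spec.lean` (helper16): write
`f = ∑ cᵢ vᵢ` with `vᵢ` in the lattice of forms with coefficients in `ℤ[ε] ⊆ K`, and put
`f₀ := ∑ r(cᵢ) vᵢ` for a `K`-linear retraction `r : ℂ → K`; then `aₙ(f₀) = r(aₙ(f))`.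
-/

set_option autoImplicit false

noncomputable section

namespace Fermat.Agent.DS

open CongruenceSubgroup UpperHalfPlane ModularFormClass
open scoped MatrixGroups ModularForm

variable {N : ℕ} [NeZero N] {ε : DirichletCharacter ℂ N} {f : CuspForm (Gamma1 N) 1}

theorem dsbm_eps_mem_field (N : ℕ) [NeZero N] (ε : DirichletCharacter ℂ N)
    (f : CuspForm (Gamma1 N) 1) (a : ZMod N) : ε a ∈ dsField N ε f :=
  IntermediateField.subset_adjoin _ _ (Or.inr ⟨a, rfl⟩)

theorem dsbm_coeff_mem_field (N : ℕ) [NeZero N] (ε : DirichletCharacter ℂ N)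
    (f : CuspForm (Gamma1 N) 1) {p : ℕ} (hp : p.Prime) (hpN : ¬ p ∣ N) :
    qCoeff f p ∈ dsField N ε f :=
  IntermediateField.subset_adjoin _ _ (Or.inl ⟨p, hp, hpN, rfl⟩)

theorem dsbm_O_le (N : ℕ) [NeZero N] (ε : DirichletCharacter ℂ N) (f : CuspForm (Gamma1 N) 1)
    {x : ℂ} (hx : x ∈ dsbO N ε) : x ∈ dsField N ε f := by
  induction hx using Subring.closure_induction with
  | mem x hx =>
    obtain ⟨a, rfl⟩ := hx
    exact dsbm_eps_mem_field N ε f a
  | zero => exact zero_mem _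
  | one => exact one_mem _
  | add x y _ _ hx hy => exact add_mem hx hy
  | neg x _ hx => exact neg_mem hx
  | mul x y _ _ hx hy => exact mul_mem hx hy

theorem dsbm_exists_nat_denom {x : ℂ} (hx : IsAlgebraic ℚ x) :
    ∃ d : ℕ, d ≠ 0 ∧ IsIntegral ℤ ((d : ℂ) * x) := by
  obtain ⟨y, hy0, hy⟩ := ((IsFractionRing.isAlgebraic_iff ℤ ℚ ℂ).mpr hx).exists_integral_multiple
  refine ⟨y.natAbs, Int.natAbs_ne_zero.mpr hy0, ?_⟩
  rw [zsmul_eq_mul] at hy
  rw [Nat.cast_natAbs]
  rcases abs_choice y with h | h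
  · rw [h]
    exact hy
  · rw [h, Int.cast_neg, neg_mul]
    exact hy.neg

/-- **B-6** (`DS/B/Model.lean`).  Normalisation: the eigenspace of `f` contains a form `f₀` with
`a₁ = 1` ALL of whose coefficients lie in the coefficient field, with bounded denominators
[`f₀ :=` `f` with a `K`-linear retraction `ℂ → K` applied coefficientwise, which preserves
`S_1(N, ε)` by B-3 and the Hecke relations because `ε(p), a_p ∈ K`].  The frozen hypotheses do NOT
constrain `aₙ(f)` for `gcd(n, N) > 1`, so `f` itself need not be algebraic. -/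
theorem ds_exists_model (h : DsEigen N ε f) :
    ∃ (f₀ : CuspForm (Gamma1 N) 1) (D : ℕ), D ≠ 0 ∧ DsEigen N ε f₀ ∧
      (∀ p : ℕ, p.Prime → ¬ p ∣ N → qCoeff f₀ p = qCoeff f p) ∧
      ∀ n, qCoeff f₀ n ∈ dsField N ε f ∧ IsIntegral ℤ ((D : ℂ) * qCoeff f₀ n) := by
  classical
  have hfin : FiniteDimensional ℚ (dsField N ε f) := ds_field_finite h
  -- a `K`-linear retraction of `ℂ` onto `K`
  obtain ⟨r, hr⟩ := (Algebra.linearMap (dsField N ε f) ℂ).exists_leftInverse_of_injective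
    (LinearMap.ker_eq_bot.mpr (algebraMap (dsField N ε f) ℂ).injective)
  have hrK : ∀ x : dsField N ε f, r (x : ℂ) = x := fun x ↦ LinearMap.congr_fun hr x
  have hrmul : ∀ (a : dsField N ε f) (z : ℂ), r ((a : ℂ) * z) = a * r z := fun a z ↦ by
    have : (a : ℂ) * z = a • z := rfl
    rw [this, map_smul, smul_eq_mul]
  -- a finite representation of `f` in the lattice
  have hfW : (⟨f, dsbi_neben h⟩ : dsbW N 1 ε) ∈
      Submodule.span ℂ ((dsbiLat N 1 ε : Submodule ℤ (dsbW N 1 ε)) : Set (dsbW N 1 ε)) := by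
    rw [dsbi_lat_span N (dsbi_three_le h) 1 ε]
    exact Submodule.mem_top
  obtain ⟨m, c, v, hsum⟩ := Submodule.mem_span_set'.mp hfW
  -- coefficients of the lattice vectors, in `K`
  have hvK : ∀ (i : Fin m) (n : ℕ), ∃ a : dsField N ε f,
      (a : ℂ) = qCoeff (((v i : dsbW N 1 ε) : CuspForm (Gamma1 N) 1)) n := fun i n ↦
    ⟨⟨_, dsbm_O_le N ε f ((v i).2 n)⟩, rfl⟩
  choose a ha using hvK
  have hf_coef : ∀ n, qCoeff f n = ∑ i, c i * (a i n : ℂ) := by
    intro n
    have h1 := congrArg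
      (fun w : dsbW N 1 ε ↦ dsbiCoeff N 1 n (w : CuspForm (Gamma1 N) 1)) hsum
    simp only [Submodule.coe_sum, Submodule.coe_smul, map_sum, map_smul, smul_eq_mul,
      dsbiCoeff_apply] at h1
    rw [← h1]
    exact Finset.sum_congr rfl fun i _ ↦ by rw [ha]
  -- the model
  let f₀W : dsbW N 1 ε := ∑ i, ((r (c i) : dsField N ε f) : ℂ) • (v i : dsbW N 1 ε)
  have hf₀_coef : ∀ n, qCoeff (f₀W : CuspForm (Gamma1 N) 1) n =
      ∑ i, ((r (c i) : dsField N ε f) : ℂ) * (a i n : ℂ) := by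
    intro n
    change dsbiCoeff N 1 n (f₀W : CuspForm (Gamma1 N) 1) = _
    simp only [f₀W, Submodule.coe_sum, Submodule.coe_smul, map_sum, map_smul, smul_eq_mul,
      dsbiCoeff_apply]
    exact Finset.sum_congr rfl fun i _ ↦ by rw [ha]
  have hcoef : ∀ n, qCoeff (f₀W : CuspForm (Gamma1 N) 1) n =
      ((r (qCoeff f n) : dsField N ε f) : ℂ) := by
    intro n
    rw [hf₀_coef, hf_coef, map_sum]
    push_cast
    refine Finset.sum_congr rfl fun i _ ↦ ?_
    rw [mul_comm (c i), hrmul]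
    push_cast
    ring
  -- eigenvalues and character values as elements of `K`
  have hone : qCoeff (f₀W : CuspForm (Gamma1 N) 1) 1 = 1 := by
    rw [hcoef, h.one]
    have := hrK 1
    rw [IntermediateField.coe_one] at this
    rw [this, IntermediateField.coe_one]
  have hp_eq : ∀ p : ℕ, p.Prime → ¬ p ∣ N →
      qCoeff (f₀W : CuspForm (Gamma1 N) 1) p = qCoeff f p := by
    intro p hp hpN
    rw [hcoef]
    exact congrArg _ (hrK ⟨qCoeff f p, dsbm_coeff_mem_field N ε f hp hpN⟩)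
  -- denominators
  have hden : ∀ i : Fin m, ∃ d : ℕ, d ≠ 0 ∧
      IsIntegral ℤ ((d : ℂ) * ((r (c i) : dsField N ε f) : ℂ)) := fun i ↦ by
    have h1 : IsAlgebraic ℚ (r (c i)) := Algebra.IsAlgebraic.isAlgebraic _
    exact dsbm_exists_nat_denom (h1.algebraMap (A := ℂ))
  choose d hd0 hd using hden
  refine ⟨(f₀W : CuspForm (Gamma1 N) 1), ∏ i, d i, Finset.prod_ne_zero_iff.mpr fun i _ ↦ hd0 i,
    ⟨hone, ?_⟩, hp_eq, fun n ↦ ⟨?_, ?_⟩⟩
  · -- the Hecke relations
    intro p hp hpN n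
    rw [hp_eq p hp hpN]
    simp only [hcoef]
    have h1 := congrArg r (h.hecke p hp hpN n)
    set εp : dsField N ε f := ⟨ε (p : ZMod N), dsbm_eps_mem_field N ε f _⟩ with hεp
    set ap : dsField N ε f := ⟨qCoeff f p, dsbm_coeff_mem_field N ε f hp hpN⟩ with hap
    have h2 : r (qCoeff f (p * n) + ε (p : ZMod N) *
        (if p ∣ n then qCoeff f (n / p) else 0)) =
        r (qCoeff f (p * n)) + εp * (if p ∣ n then r (qCoeff f (n / p)) else 0) := by
      rw [map_add, show ε (p : ZMod N) = (εp : ℂ) from rfl, hrmul]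
      congr 2
      split_ifs
      · rfl
      · exact map_zero r
    have h3 : r (qCoeff f p * qCoeff f n) = ap * r (qCoeff f n) := by
      rw [show qCoeff f p = (ap : ℂ) from rfl, hrmul]
    rw [h2, h3] at h1
    have h4 := congrArg (fun x : dsField N ε f ↦ (x : ℂ)) h1
    push_cast at h4
    have h5 : ((if p ∣ n then r (qCoeff f (n / p)) else 0 : dsField N ε f) : ℂ) =
        if p ∣ n then ((r (qCoeff f (n / p)) : dsField N ε f) : ℂ) else 0 := by
      split_ifs <;> simp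
    rw [h5] at h4
    exact h4
  · rw [hcoef]
    exact (r (qCoeff f n)).2
  · rw [hf₀_coef, Finset.mul_sum]
    refine IsIntegral.sum _ fun i _ ↦ ?_
    have h1 : ((∏ j, d j : ℕ) : ℂ) * (((r (c i) : dsField N ε f) : ℂ) * (a i n : ℂ)) =
        ((∏ j ∈ Finset.univ.erase i, d j : ℕ) : ℂ) *
          (((d i : ℂ) * ((r (c i) : dsField N ε f) : ℂ)) * (a i n : ℂ)) := by
      rw [← Finset.mul_prod_erase Finset.univ d (Finset.mem_univ i)]
      push_cast
      ring
    rw [h1]
    have hnat : IsIntegral ℤ (((∏ j ∈ Finset.univ.erase i, d j : ℕ) : ℂ)) := by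
      have := isIntegral_algebraMap (R := ℤ) (A := ℂ)
        (x := ((∏ j ∈ Finset.univ.erase i, d j : ℕ) : ℤ))
      rwa [eq_intCast, Int.cast_natCast] at this
    refine hnat.mul ((hd i).mul ?_)
    rw [ha]
    exact dsbi_isIntegral_of_mem ε ((v i).2 n)

end Fermat.Agent.DS
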