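import Fermat.Agent.DS.B.Conj
import Fermat.Agent.DS.B.Integral
import Fermat.Agent.DS.B.Field
import Fermat.Agent.DS.B.Model
import Fermat.Agent.DS.K.Defs
import Fermat.Agent.DS.F.Main
import Fermat.Agent.S23.AutC

/-!
# Program DS, package (B), row B-7: the export `ds_coeffField`

The coefficient field `K = ℚ(a_p (p ∤ N), ε)` is a number field (B-5), the `a_p` are integers of it
(B-4), and every conjugate family `σ(a_p)`, `σ : K →+* ℂ`, satisfies Rankin's bound: `σ` extends to
an automorphism of `ℂ` (`K = ℚ(θ)`, and `Aut(ℂ)` is transitive on the roots of the minimal polynomial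
of `θ`: S23 `exists_ringAut_of_conj`), the conjugate `q`-series is again a weight one eigenform (B-2)
and `ds_rankin` (package F) applies.
-/

set_option autoImplicit false

noncomputable section

namespace Fermat.Agent.DS

open CongruenceSubgroup UpperHalfPlane ModularFormClass
open scoped MatrixGroups ModularForm Real

/-- every embedding of a number field `K ⊆ ℂ` into `ℂ` is induced by an automorphism of `ℂ`. -/
private theorem dsbe_exists_extension (K : IntermediateField ℚ ℂ) [FiniteDimensional ℚ K]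
    (σ : K →+* ℂ) : ∃ σ' : ℂ →+* ℂ, ∀ x : K, σ' (x : ℂ) = σ x := by
  classical
  set pb : PowerBasis ℚ K := Field.powerBasisOfFiniteOfSeparable ℚ K with hpb
  set θ : K := pb.gen with hθ
  -- `σ` as a `ℚ`-algebra homomorphism
  let σa : K →ₐ[ℚ] ℂ := σ.toRatAlgHom
  have hσa : ∀ x : K, σa x = σ x := fun x => rfl
  have hint : IsIntegral ℚ θ := Algebra.IsIntegral.isIntegral θ
  have halg : IsAlgebraic ℚ ((θ : K) : ℂ) := by
    have : IsAlgebraic ℚ θ := hint.isAlgebraic
    exact this.algebraMap (A := ℂ)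
  have hmin : minpoly ℚ ((θ : K) : ℂ) = minpoly ℚ θ :=
    (minpoly.algebraMap_eq (A := ℚ) (B := K) (B' := ℂ) (algebraMap K ℂ).injective θ)
  have hroot : Polynomial.aeval (σ θ) (minpoly ℚ ((θ : K) : ℂ)) = 0 := by
    rw [hmin, ← hσa, Polynomial.aeval_algHom_apply, minpoly.aeval, map_zero]
  obtain ⟨τ, hτ⟩ := Fermat.Agent.S23.exists_ringAut_of_conj halg hroot
  refine ⟨τ.toRingHom, ?_⟩
  -- two `ℚ`-algebra homomorphisms agreeing on the generator
  let τa : K →ₐ[ℚ] ℂ := (τ.toRingHom.comp (algebraMap K ℂ)).toRatAlgHom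
  have heq : τa = σa := by
    apply pb.algHom_ext
    show τ ((θ : K) : ℂ) = σ θ
    exact hτ
  intro x
  have := congrArg (fun φ : K →ₐ[ℚ] ℂ => φ x) heq
  exact this

section B

variable {N : ℕ} [NeZero N] {ε : DirichletCharacter ℂ N} {f : CuspForm (Gamma1 N) 1}

/-- **B-7 = EXPORT to (G)/(K)** (`DS/B/Export.lean`): helper17's black box (1)
[B-2 + helper1's `ds_rankin` for every conjugate, B-4, B-5; every `σ : K →+* ℂ` extends to
`ℂ →+* ℂ`]. -/
theorem ds_coeffField (h : DsEigen N ε f) :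
    DsCoeffField N (fun n => qCoeff f n) (dsField N ε f) := by
  have hfin : FiniteDimensional ℚ (dsField N ε f) := ds_field_finite h
  have hmem : ∀ p : DsfPrime N, (fun n => qCoeff f n) p ∈ dsField N ε f := fun p =>
    IntermediateField.subset_adjoin _ _ (Or.inl ⟨p.1, p.2.1, p.2.2, rfl⟩)
  refine ⟨hfin, hmem, fun p => ds_isIntegral h p.2.1 p.2.2, fun σ => ?_⟩
  obtain ⟨σ', hσ'⟩ := dsbe_exists_extension (dsField N ε f) σ
  obtain ⟨f', hf', hcoeff⟩ := ds_conj h σ'
  obtain ⟨C, hC⟩ := ds_rankin N (ε.ringHomComp σ') f' hf'.one hf'.hecke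
  refine ⟨C, fun s hs1 hs2 => ?_⟩
  have hterm : ∀ p : DsfPrime N,
      σ ⟨(fun n => qCoeff f n) p, hmem p⟩ = qCoeff f' p := by
    intro p
    rw [hcoeff, ← hσ']
  simp only [hterm]
  exact hC s hs1 hs2

end B

end Fermat.Agent.DS
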