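import Mathlib
import Fermat.Prelude.Def_FLTPrelim_Modularity
import Fermat.Prelude.Def_ModularForm_HeckeOperator
import Fermat.Agent.S23.Defs
import Fermat.Agent.DS.A.Spec
import Fermat.Agent.DS.Wt1.Spec
import Fermat.Agent.DS.F.Spec
import Fermat.Agent.DS.K.Defs
import Fermat.Agent.DS.B.Defs
import Fermat.Agent.DS.R.Main
import Fermat.Agent.DS.B.TCoeff
import Fermat.Agent.DS.B.NebenInv
import Fermat.Agent.DS.B.HeckeW
import Fermat.Agent.DS.B.ConjNeben
import Fermat.Agent.DS.B.Conj
import Fermat.Agent.DS.B.Lattice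
import Fermat.Agent.DS.B.Integral
import Fermat.Agent.DS.B.Field
import Fermat.Agent.DS.B.Model
import Fermat.Agent.DS.B.Export

/-!
# Program DS (S48, Deligne–Serre), package (B) + package (R): INTERFACE HUB

Sub-architect / integrator: helper16.  Blueprint: `blueprints/S48-B.md`.  The statements of the
former stub file (origin/helper16 4fb8790, kept as `blueprints/S48-B-Spec.lean.txt`) are now
PROVED in the imported files; this file only re-exports them (namespace `Fermat.Agent.DS`).

* package (R) (`DS/R/{Sturm,Eis,Prim,Main}.lean`, helper16): `dsr_eq_zero_of_le_two`, `dsr_sturm`,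
  `ds_finiteDimensional`, `dsrCoeffLin(_injective)`, `dsrTruncLin(_injective)`, `dsrR`,
  `dsrR_slash`, `dsrR_qCoeff`, `dsrR_qCoeff_zero`, `dsr_exists_prim`, `ds_exists_conj`,
  `ds_isBddRat_of_rational`, `dsr_span_rational`, `ds_span_integral`.
* B-0a `dsb_isNice_T`, `dsb_qCoeff_T` (`DS/B/TCoeff.lean`, helper3)
* B-0b `dsb_neben_of_inv` (`DS/B/NebenInv.lean`, helper3)
* B-0c `dsb_exists_T` (`DS/B/HeckeW.lean`, helper3)
* B-1 `dsb_conj_neben` (`DS/B/ConjNeben.lean`, helper3)
* B-2 `ds_conj` (`DS/B/Conj.lean`, helper3)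
* B-3 `dsb_span_lattice` (+ `ds_conj_diamond`, `dsb_conj_comp`, `dsb_diamond_rational`,
  `dsblProj`) (`DS/B/Lattice.lean`, helper16)
* B-4 `ds_isIntegral`, B-5 `ds_field_finite`, B-6 `ds_exists_model`
  (`DS/B/{EigenRing,Integral,Field,Model}.lean`, helper28)
* B-7 `ds_coeffField` (`DS/B/Export.lean`, helper1)
-/

set_option autoImplicit false

noncomputable section

namespace Fermat.Agent.DS

open CongruenceSubgroup UpperHalfPlane ModularFormClass
open scoped MatrixGroups ModularForm Real

theorem ds_eps_mem_field (N : ℕ) [NeZero N] (ε : DirichletCharacter ℂ N)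
    (f : CuspForm (Gamma1 N) 1) (a : ZMod N) : ε a ∈ dsField N ε f :=
  IntermediateField.subset_adjoin _ _ (Or.inr ⟨a, rfl⟩)

end Fermat.Agent.DS
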